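import Mathlib
import Fermat.Agent.PT.Defs

/-!
# W3-PT, ARITH-GLUE (helper98): the trace functional from local invariants and reciprocity

* `h98a_exists_tr` : given local functionals `inv v` on the local `2`-cochains killing the
  continuous local coboundaries of `k(χ)` (`InvOK`) and satisfying the reciprocity law
  `∑ v, inv v (res_v a) = 0` for all global continuous `2`-cocycles `a` of `k(χ)`, there is a
  trace functional `tr` on the cone `3`-cochains with `TrOK` and `invAt tr v = inv v`.
-/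

set_option autoImplicit false

namespace Fermat.Agent.PT

section Glue

variable {k : Type} [Field k] (D : Datum k)

lemma h98a_repAt_chiRep (v : D.P) : D.repAt (chiRep D.chi) v = chiRep (D.chiAt v) := by
  ext h
  simp [Datum.repAt, Datum.chiAt]

/-- The sum of the local functionals on the restrictions of a global `2`-cochain. -/
noncomputable def h98a_Lam (inv : ∀ v, (D.H v × D.H v → k) →ₗ[k] k) :
    (D.G × D.G → k) →ₗ[k] k :=
  ∑ v, (inv v) ∘ₗ res2 k k (D.loc v)

lemma h98a_Lam_apply (inv : ∀ v, (D.H v × D.H v → k) →ₗ[k] k) (a : D.G × D.G → k) :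
    h98a_Lam D inv a = ∑ v, inv v (res2 k k (D.loc v) a) := by
  simp [h98a_Lam, LinearMap.sum_apply]

/-- The sum of the local functionals on the local components. -/
noncomputable def h98a_Sig (inv : ∀ v, (D.H v × D.H v → k) →ₗ[k] k) :
    (∀ v : D.P, D.H v × D.H v → k) →ₗ[k] k :=
  ∑ v, (inv v) ∘ₗ LinearMap.proj v

lemma h98a_Sig_apply (inv : ∀ v, (D.H v × D.H v → k) →ₗ[k] k)
    (β : ∀ v : D.P, D.H v × D.H v → k) :
    h98a_Sig D inv β = ∑ v, inv v (β v) := by
  simp [h98a_Sig, LinearMap.sum_apply]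

/-- **The trace functional** from local invariants and the reciprocity law. -/
theorem h98a_exists_tr (inv : ∀ v, (D.H v × D.H v → k) →ₗ[k] k)
    (hinv : ∀ v, InvOK (D.levH v) (D.chiAt v) (inv v))
    (hrec : ∀ a ∈ Z2 D.lev (chiRep D.chi), ∑ v, inv v (res2 k k (D.loc v) a) = 0) :
    ∃ tr : D.CC3 k →ₗ[k] k, D.TrOK tr ∧ ∀ v, D.invAt tr v = inv v := by
  classical
  -- the map `d²` on level-constant cochains
  set f : ↥(lc2 D.lev k k) →ₗ[k] (D.G × D.G × D.G → k) :=
    d2 (chiRep D.chi) ∘ₗ (lc2 D.lev k k).subtype with hf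
  set g : ↥(lc2 D.lev k k) →ₗ[k] k := h98a_Lam D inv ∘ₗ (lc2 D.lev k k).subtype with hg
  have hker : LinearMap.ker f ≤ LinearMap.ker g := by
    intro a ha
    rw [LinearMap.mem_ker] at ha ⊢
    have : (a : D.G × D.G → k) ∈ Z2 D.lev (chiRep D.chi) := by
      rw [mem_Z2]
      exact ⟨ha, a.2⟩
    simpa [hg, h98a_Lam_apply] using hrec _ this
  -- `τ₀` on the range of `f`
  set τ₀ : ↥(LinearMap.range f) →ₗ[k] k :=
    ((LinearMap.ker f).liftQ g hker) ∘ₗ (f.quotKerEquivRange).symm.toLinearMap with hτ₀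
  obtain ⟨τ, hτ⟩ := LinearMap.exists_extend τ₀
  have hτf : ∀ a : ↥(lc2 D.lev k k), τ (f a) = g a := by
    intro a
    have h1 : τ (f a) = τ₀ ⟨f a, LinearMap.mem_range_self f a⟩ := by
      rw [← hτ]
      rfl
    rw [h1, hτ₀]
    simp only [LinearMap.coe_comp, LinearEquiv.coe_coe, Function.comp_apply]
    have h2 : (f.quotKerEquivRange).symm ⟨f a, LinearMap.mem_range_self f a⟩
        = Submodule.Quotient.mk a := by
      rw [LinearEquiv.symm_apply_eq]
      apply Subtype.ext
      simp [LinearMap.quotKerEquivRange_apply_mk]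
    rw [h2]
    simp [Submodule.liftQ_apply]
  refine ⟨h98a_Sig D inv ∘ₗ LinearMap.snd k _ _ - τ ∘ₗ LinearMap.fst k _ _, ?_, ?_⟩
  · -- TrOK
    rintro c ⟨z, hz, rfl⟩
    obtain ⟨hz1, hz2⟩ := hz
    have hz1' : IsLC2 D.lev z.1 := hz1
    have hτ1 : τ (d2 (chiRep D.chi) z.1) = h98a_Lam D inv z.1 := hτf ⟨z.1, hz1'⟩
    simp only [LinearMap.sub_apply, LinearMap.coe_comp, Function.comp_apply,
      LinearMap.snd_apply, LinearMap.fst_apply, Datum.coneD2_apply, h98a_Sig_apply]
    rw [hτ1, h98a_Lam_apply, ← Finset.sum_sub_distrib]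
    refine Finset.sum_eq_zero (fun v _ => ?_)
    rw [map_sub, sub_sub_cancel_left, neg_eq_zero]
    apply hinv v
    rw [mem_B2]
    refine ⟨z.2 v, hz2 v (Set.mem_univ v), ?_⟩
    rw [h98a_repAt_chiRep]
  · intro v
    ext β
    simp only [Datum.invAt, LinearMap.coe_comp, Function.comp_apply, LinearMap.sub_apply,
      LinearMap.snd_apply, LinearMap.fst_apply, LinearMap.inr_apply, map_zero, sub_zero,
      h98a_Sig_apply]
    rw [Finset.sum_eq_single v]
    · simp
    · intro w _ hw
      simp [LinearMap.single_apply, Pi.single_eq_of_ne hw]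
    · intro h
      exact absurd (Finset.mem_univ v) h

end Glue

end Fermat.Agent.PT

namespace Fermat.Agent.PT

section Tate

variable {k : Type} [Field k] (D : Datum k)

/-- A functional on the cone `3`-cochains, evaluated on a cochain with vanishing global
component, is the sum of the induced local functionals. -/
theorem h98a_tr_snd (tr : D.CC3 k →ₗ[k] k) (β : ∀ v : D.P, D.H v × D.H v → k) :
    tr ((0, β) : D.CC3 k) = ∑ v, D.invAt tr v (β v) := by
  classical
  have h1 : ((0, β) : D.CC3 k)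
      = ∑ v, LinearMap.inr k (D.G × D.G × D.G → k) (∀ v : D.P, D.H v × D.H v → k)
          (LinearMap.single k (fun v : D.P => D.H v × D.H v → k) v (β v)) := by
    rw [← map_sum]
    simp only [LinearMap.inr_apply]
    congr 1
    funext w
    rw [Finset.sum_apply, Finset.sum_eq_single w]
    · simp
    · intro v _ hv
      simp [LinearMap.single_apply, Pi.single_eq_of_ne (Ne.symm hv)]
    · intro h
      exact absurd (Finset.mem_univ w) h
  rw [h1, map_sum]
  rfl

variable {V W : Type} [AddCommGroup V] [Module k V] [AddCommGroup W] [Module k W]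

/-- **Tate's formula** for the first duality pairing: if `a ∪ y = d² ε` with `ε` level-constant,
then `⟨(a, b), y⟩ = ∑_v inv_v (b_v ∪ res_v y - res_v ε)`.  In particular the pairing depends on
the trace functional only through its local invariants. -/
theorem h98a_tate (tr : D.CC3 k →ₗ[k] k) (htr : D.TrOK tr) (σ : Representation k D.G W)
    (β : V →ₗ[k] W →ₗ[k] k) (z : D.CC1 V) (y : D.G × D.G → W) (ε : D.G × D.G → k)
    (hε : IsLC2 D.lev ε) (hd : d2 (chiRep D.chi) ε = cup12 β σ z.1 y) :
    D.pair1 σ tr β z y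
      = ∑ v, D.invAt tr v (cup02 β (z.2 v) (res2 k W (D.loc v) y) - res2 k k (D.loc v) ε) := by
  have hB : D.coneD2 (chiRep D.chi) ((ε, fun _ => 0) : D.CC2 k) ∈ D.BC3 (chiRep D.chi) := by
    refine ⟨(ε, fun _ => 0), ⟨hε, ?_⟩, rfl⟩
    intro v _
    exact (lc1 (D.levH v) k k).zero_mem
  have h0 := htr _ hB
  rw [Datum.coneD2_apply] at h0
  have h1 : ((cup12 β σ z.1 y, fun v => cup02 β (z.2 v) (res2 k W (D.loc v) y)) : D.CC3 k)
      = (d2 (chiRep D.chi) ε,
          fun v => res2 k k (D.loc v) ε - d1 (D.repAt (chiRep D.chi) v) ((fun _ => 0 : ∀ v : D.P, D.H v → k) v))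
        + ((0, fun v => cup02 β (z.2 v) (res2 k W (D.loc v) y) - res2 k k (D.loc v) ε) :
            D.CC3 k) := by
    refine Prod.ext ?_ ?_
    · simp [hd]
    · funext v
      simp
  unfold Datum.pair1
  rw [h1, map_add, h0, zero_add, h98a_tr_snd]

end Tate

end Fermat.Agent.PT
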