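import Mathlib
import Fermat.Prelude.Def_GroupCohomology_ContinuousUnramified
import Fermat.Agent.PT.Defs
import Fermat.Agent.PT.Iface
import Fermat.Agent.PT.Iface2
import Fermat.Agent.PT.Arith.Glue

/-!
# W3-PT, ARITH-GLUE (helper98): the arithmetic inputs of `ArithBase2`

`ArithBase2` (frame v1.2) is split into four statements about ONE family of local invariants
`inv q`, `q` running over ALL primes (independent of `S`):

* `LocInvOK p inv`    : `inv q` kills the continuous `2`-coboundaries of `μ_p` (PT-LOC);
* `LocBaseFor p inv`  : local `H³ = 0` and local duality `H² × H⁰` for the permutation modules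
                        of the open subgroups on which the cyclotomic character is trivial (PT-LOC);
* `RecQFor p inv`     : the reciprocity law over `ℚ`: `∑_{q ∈ S} inv_q (res_q a) = 0` for the
                        continuous `2`-cocycles `a` of `G_{ℚ,S}` with values in `μ_p` (PT-GLOB-BR);
* `GlobBaseFor p inv` : for EVERY trace functional with `TrOK` and local invariants `inv q`:
                        `H¹` finite, `H³ = 0` and the first duality for the global permutation
                        modules (PT-SHAP + PT-GLOB).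

`arithBase2_of_inputs : ArithInputs → ArithBase2`.
-/

set_option autoImplicit false

open ExtCitation groupCohomology

namespace Fermat.Agent.PT

/-- A family of local invariants, one for every prime `q`. -/
abbrev InvFam (p : ℕ) [Fact p.Prime] : Type :=
  ∀ q : Nat.Primes,
    (primeLocalGaloisGroup q × primeLocalGaloisGroup q → ZMod p) →ₗ[ZMod p] ZMod p

/-- The local levels at `q`. -/
noncomputable abbrev levLoc (q : Nat.Primes) : Lev (primeLocalGaloisGroup q) :=
  levFin.comap (primeLocalToGlobal q)

/-- The local cyclotomic character at `q`. -/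
noncomputable abbrev chiLoc (p : ℕ) [Fact p.Prime] (q : Nat.Primes) :
    primeLocalGaloisGroup q →* (ZMod p)ˣ :=
  (cycloChar p).comp (primeLocalToGlobal q)

/-- `inv q` kills the continuous local `2`-coboundaries of `μ_p`. -/
def LocInvOK (p : ℕ) [Fact p.Prime] (inv : InvFam p) : Prop :=
  ∀ q : Nat.Primes, InvOK (levLoc q) (chiLoc p q) (inv q)

/-- Local base case: `H³ = 0` and the duality `H² × H⁰` for the local permutation modules. -/
def LocBaseFor (p : ℕ) [Fact p.Prime] (inv : InvFam p) : Prop :=
  ∀ (q : Nat.Primes) (U : Subgroup (primeLocalGaloisGroup q)), (levLoc q).IsOpen U →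
    (∀ u ∈ U, chiLoc p q u = 1) →
    H3Vanishes (levLoc q) (permRep (ZMod p) U) ∧
    LPerf2 (levLoc q) (inv q) (permRep (ZMod p) U)
      (dualTw (chiLoc p q) (permRep (ZMod p) U)) (Module.Dual.eval (ZMod p) _)

/-- The reciprocity law over `ℚ` for the classes unramified outside `S`. -/
def RecQFor (p : ℕ) [Fact p.Prime] (inv : InvFam p) : Prop :=
  ∀ S : Finset Nat.Primes, pPrime p ∈ S → ∀ a ∈ Z2 (levQ S) (chiRep (cycloChar p)),
    ∑ q : ↥S, inv q.1 (res2 (ZMod p) (ZMod p) (primeLocalToGlobal q.1) a) = 0

/-- Global base case: finiteness of `H¹`, vanishing of `H³` and the first duality for the global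
permutation modules, for every trace functional with the given local invariants. -/
def GlobBaseFor (p : ℕ) [Fact p.Prime] (inv : InvFam p) : Prop :=
  ∀ S : Finset Nat.Primes, pPrime p ∈ S →
    ∀ tr : (DQ p S).CC3 (ZMod p) →ₗ[ZMod p] ZMod p, (DQ p S).TrOK tr →
    (∀ q : (DQ p S).P, (DQ p S).invAt tr q = inv q.1) →
    ∀ U : Subgroup (DQ p S).G, (DQ p S).lev.IsOpen U → (∀ u ∈ U, (DQ p S).chi u = 1) →
      (DQ p S).VV (permRep (ZMod p) U) ∧
      (DQ p S).Perf1 (dualTw (DQ p S).chi (permRep (ZMod p) U)) (permRep (ZMod p) U) tr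
        LinearMap.id

/-- The arithmetic inputs of S55. -/
def ArithInputs : Prop :=
  ∀ (p : ℕ) [Fact p.Prime], p ≠ 2 →
    ∃ inv : InvFam p, LocInvOK p inv ∧ LocBaseFor p inv ∧ RecQFor p inv ∧ GlobBaseFor p inv

theorem arithBase2_of_inputs (h : ArithInputs) : ArithBase2 := by
  intro p _ S hp2 hpS
  obtain ⟨inv, hOK, hLoc, hRec, hGlob⟩ := h p hp2
  obtain ⟨tr, htr, hinv⟩ := h98a_exists_tr (DQ p S) (fun q => inv q.1) (fun q => hOK q.1)
    (fun a ha => hRec S hpS a ha)
  refine ⟨tr, htr, fun U hU hχ => hGlob S hpS tr htr hinv U hU hχ, fun q U hU hχ => ?_⟩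
  rw [hinv q]
  exact hLoc q.1 U hU hχ

end Fermat.Agent.PT
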