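import Mathlib
import Fermat.Agent.PT.Assembly2
import Fermat.Agent.PT.Arith.Iface
import Fermat.Agent.PT.Alg.Van
import Fermat.Agent.PT.Alg.LTheta2
import Fermat.Agent.PT.Alg.Count2
import Fermat.Agent.PT.Alg.H57LocalAux
import Fermat.Agent.PT.Bridge.DQGood
import Fermat.Agent.PT.Bridge.BridgeSha

/-!
# W3-PT: integration of all landed algebra / bridge pieces (helper98)

`shaFinrank_of_inputs : Theta1Abs → ArithInputs → ShaFinrankStatement`: everything except the
first duality dévissage (`Theta1Abs`) and the arithmetic inputs (`ArithInputs`) is proved.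
-/

set_option autoImplicit false

namespace Fermat.Agent.PT

theorem shaFinrank_of_inputs (hT1 : Theta1Abs) (hA : ArithInputs) : ShaFinrankStatement :=
  shaFinrank_of2 vanAbs lVanAbs hT1 lTheta2Abs count2 localAux Bridge.dqGood bridgeSha
    (arithBase2_of_inputs hA)

end Fermat.Agent.PT
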