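import Mathlib
import Fermat.Agent.PT.Arith.Wire
import Fermat.Agent.PT.Alg.Theta1

/-!
# W3-PT: S55 from the arithmetic base case alone (helper98)

All pure algebra and bridge inputs of frame v1.2 are proved; what remains is `ArithBase2`
(equivalently `ArithInputs`, or helper56's `h56s_ArithBaseL`).

* `shaFinrank_of_arithBase2 : ArithBase2 → ShaFinrankStatement`
* `s55_of_arithBase2`       : `ArithBase2 →` the frozen statement S55.
* `s55_of_arithInputs`      : `ArithInputs →` the frozen statement S55.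
-/

set_option autoImplicit false

open CategoryTheory Module groupCohomology ExtCitation

namespace Fermat.Agent.PT

theorem shaFinrank_of_arithBase2 (hA : ArithBase2) : ShaFinrankStatement :=
  shaFinrank_of2 vanAbs lVanAbs theta1Abs lTheta2Abs count2 localAux Bridge.dqGood bridgeSha hA

theorem s55_of_arithBase2 (hA : ArithBase2)
    {p : ℕ} [Fact p.Prime] (hp2 : p ≠ 2) (S : Finset Nat.Primes) (hpS : pPrime p ∈ S)
    (M : Rep (ZMod p) (AlgebraicClosure ℚ ≃ₐ[ℚ] AlgebraicClosure ℚ))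
    [FiniteDimensional (ZMod p) M]
    (hsm : ∀ m : M, ∃ F : IntermediateField ℚ (AlgebraicClosure ℚ), FiniteDimensional ℚ F ∧
      ∀ s ∈ F.fixingSubgroup, M.ρ s m = m)
    (hMur : ∀ q : Nat.Primes, q ∉ S → ∀ A : ValuationSubring (AlgebraicClosure ℚ),
      A.LiesOverPrime (q : ℕ) → ∀ g ∈ A.inertiaSubgroupIn ℚ, M.ρ g = 1) :
    ∃ B : sha₁ S (M.dualTwist (cycloChar p)) →ₗ[ZMod p] sha₂ S M →ₗ[ZMod p] ZMod p,
      (∀ y, (∀ x, B y x = 0) → y = 0) ∧ (∀ x, (∀ y, B y x = 0) → x = 0) :=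
  s55_of_shaFinrank (shaFinrank_of_arithBase2 hA) hp2 S hpS M hsm hMur

theorem s55_of_arithInputs (hA : ArithInputs)
    {p : ℕ} [Fact p.Prime] (hp2 : p ≠ 2) (S : Finset Nat.Primes) (hpS : pPrime p ∈ S)
    (M : Rep (ZMod p) (AlgebraicClosure ℚ ≃ₐ[ℚ] AlgebraicClosure ℚ))
    [FiniteDimensional (ZMod p) M]
    (hsm : ∀ m : M, ∃ F : IntermediateField ℚ (AlgebraicClosure ℚ), FiniteDimensional ℚ F ∧
      ∀ s ∈ F.fixingSubgroup, M.ρ s m = m)
    (hMur : ∀ q : Nat.Primes, q ∉ S → ∀ A : ValuationSubring (AlgebraicClosure ℚ),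
      A.LiesOverPrime (q : ℕ) → ∀ g ∈ A.inertiaSubgroupIn ℚ, M.ρ g = 1) :
    ∃ B : sha₁ S (M.dualTwist (cycloChar p)) →ₗ[ZMod p] sha₂ S M →ₗ[ZMod p] ZMod p,
      (∀ y, (∀ x, B y x = 0) → y = 0) ∧ (∀ x, (∀ y, B y x = 0) → x = 0) :=
  s55_of_arithBase2 (arithBase2_of_inputs hA) hp2 S hpS M hsm hMur

end Fermat.Agent.PT
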